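import Mathlib

/-!
# Row LT, tower T5, leaf T5.01 (helper379): Hilbert space lemmas (Mathlib only)

* `orth_summable379` : a pairwise orthogonal sequence `φ` with `⟪φ i, y⟫ = ⟪φ i, φ i⟫` is summable.
* `parseval_expand379` : Parseval's identity for `g` in an orthonormal sequence `E` gives
  `⟪w, g⟫ = ∑ ⟪w, E i⟫ ⟪E i, g⟫` for every `w`.
-/

set_option autoImplicit false

open scoped InnerProductSpace ComplexConjugate

noncomputable section

namespace Fermat.Agent.LT.T5.H379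

variable {E : Type*} [NormedAddCommGroup E] [InnerProductSpace ℂ E]

theorem hasSum_inner_right379 {ι : Type*} {φ : ι → E} {g : E} (h : HasSum φ g) (a : E) :
    HasSum (fun i => ⟪a, φ i⟫_ℂ) ⟪a, g⟫_ℂ :=
  (innerSL ℂ a).hasSum h

theorem hasSum_inner_left379 {ι : Type*} {φ : ι → E} {g : E} (h : HasSum φ g) (a : E) :
    HasSum (fun i => ⟪φ i, a⟫_ℂ) ⟪g, a⟫_ℂ := by
  have h1 := (hasSum_inner_right379 h a).star
  simpa using h1

/-- Bessel's inequality for an orthogonal sequence of "projections" of `y`. -/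
theorem orth_sum_le379 {φ : ℕ → E} {y : E}
    (horth : ∀ i j, i ≠ j → ⟪φ i, φ j⟫_ℂ = 0)
    (hproj : ∀ i, ⟪φ i, y⟫_ℂ = ⟪φ i, φ i⟫_ℂ) (s : Finset ℕ) :
    ∑ i ∈ s, ‖φ i‖ ^ 2 ≤ ‖y‖ ^ 2 := by
  classical
  set p : E := ∑ i ∈ s, φ i with hp
  have h1 : ⟪p, p⟫_ℂ = ∑ i ∈ s, ⟪φ i, φ i⟫_ℂ := by
    rw [hp, sum_inner]
    refine Finset.sum_congr rfl fun i hi => ?_
    rw [inner_sum]
    exact Finset.sum_eq_single i (fun j _ hji => horth i j (Ne.symm hji))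
      (fun h => absurd hi h)
  have h2 : ⟪p, y⟫_ℂ = ∑ i ∈ s, ⟪φ i, φ i⟫_ℂ := by
    rw [hp, sum_inner]
    exact Finset.sum_congr rfl fun i _ => hproj i
  have h3 : ⟪p, y⟫_ℂ = ((‖p‖ ^ 2 : ℝ) : ℂ) := by
    rw [h2, ← h1, inner_self_eq_norm_sq_to_K]
    norm_cast
  have h4 : ‖p‖ ^ 2 ≤ ‖p‖ * ‖y‖ := by
    have := norm_inner_le_norm (𝕜 := ℂ) p y
    rw [h3, Complex.norm_real, Real.norm_eq_abs, abs_of_nonneg (by positivity)] at this
    exact this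
  have h5 : ‖p‖ ≤ ‖y‖ := by
    rcases (norm_nonneg p).eq_or_lt with h0 | h0
    · rw [← h0]; exact norm_nonneg y
    · rw [pow_two] at h4
      exact le_of_mul_le_mul_left h4 h0
  have h6 : ((∑ i ∈ s, ‖φ i‖ ^ 2 : ℝ) : ℂ) = ((‖p‖ ^ 2 : ℝ) : ℂ) := by
    rw [← h3, h2]
    push_cast
    refine Finset.sum_congr rfl fun i _ => ?_
    rw [inner_self_eq_norm_sq_to_K]
    norm_cast
  have h7 : ∑ i ∈ s, ‖φ i‖ ^ 2 = ‖p‖ ^ 2 := by exact_mod_cast h6
  rw [h7]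
  exact pow_le_pow_left₀ (norm_nonneg _) h5 2

/-- The sum of an orthogonal sequence of projections of `y`: inner products with the terms. -/
theorem orth_inner_tsum379 {φ : ℕ → E} {g' : E} (hs : HasSum φ g')
    (horth : ∀ i j, i ≠ j → ⟪φ i, φ j⟫_ℂ = 0) (j : ℕ) :
    ⟪φ j, g'⟫_ℂ = ⟪φ j, φ j⟫_ℂ := by
  have h1 := hasSum_inner_right379 hs (φ j)
  have h2 : HasSum (fun i => ⟪φ j, φ i⟫_ℂ) ⟪φ j, φ j⟫_ℂ :=
    hasSum_single j (fun i hij => horth j i (Ne.symm hij))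
  exact h1.unique h2

/-- The remainder is orthogonal to the sum. -/
theorem orth_rem379 {φ : ℕ → E} {y g' : E} (hs : HasSum φ g')
    (horth : ∀ i j, i ≠ j → ⟪φ i, φ j⟫_ℂ = 0)
    (hproj : ∀ i, ⟪φ i, y⟫_ℂ = ⟪φ i, φ i⟫_ℂ) : ⟪g', y - g'⟫_ℂ = 0 := by
  have h1 := hasSum_inner_left379 hs (y - g')
  have h2 : (fun i => ⟪φ i, y - g'⟫_ℂ) = fun _ => 0 := by
    funext i
    rw [inner_sub_right, hproj i, orth_inner_tsum379 hs horth i, sub_self]
  rw [h2] at h1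
  exact h1.unique hasSum_zero

/-- The square norm of the sum. -/
theorem orth_norm_sq379 {φ : ℕ → E} {g' : E} (hs : HasSum φ g')
    (horth : ∀ i j, i ≠ j → ⟪φ i, φ j⟫_ℂ = 0) :
    HasSum (fun i => ‖φ i‖ ^ 2) (‖g'‖ ^ 2) := by
  have h1 := hasSum_inner_left379 hs g'
  have h2 : (fun i => ⟪φ i, g'⟫_ℂ) = fun i => ((‖φ i‖ ^ 2 : ℝ) : ℂ) := by
    funext i
    rw [orth_inner_tsum379 hs horth i, inner_self_eq_norm_sq_to_K]
    norm_cast
  rw [h2] at h1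
  have h3 : ⟪g', g'⟫_ℂ = ((‖g'‖ ^ 2 : ℝ) : ℂ) := by
    rw [inner_self_eq_norm_sq_to_K]
    norm_cast
  rw [h3] at h1
  exact_mod_cast h1

variable [CompleteSpace E]

/-- A pairwise orthogonal sequence of "projections" of `y` is summable. -/
theorem orth_summable379 {φ : ℕ → E} {y : E}
    (horth : ∀ i j, i ≠ j → ⟪φ i, φ j⟫_ℂ = 0)
    (hproj : ∀ i, ⟪φ i, y⟫_ℂ = ⟪φ i, φ i⟫_ℂ) : Summable φ := by
  have hsq : Summable fun i => ‖φ i‖ ^ 2 :=
    summable_of_sum_le (fun i => by positivity) (fun s => orth_sum_le379 horth hproj s)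
  let V : ℕ → Submodule ℂ E := fun i => Submodule.span ℂ {φ i}
  have hV : Pairwise fun i j => V i ⟂ V j := by
    intro i j hij
    rw [Submodule.isOrtho_span]
    intro u hu v hv
    rw [Set.mem_singleton_iff] at hu hv
    rw [hu, hv]
    exact horth i j hij
  have hfam := OrthogonalFamily.of_pairwise hV
  let f : ∀ i, V i := fun i => ⟨φ i, Submodule.mem_span_singleton_self (φ i)⟩
  have := (hfam.summable_iff_norm_sq_summable f).2 hsq
  exact this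

/-- **Parseval gives the expansion.** -/
theorem parseval_expand379 {e : ℕ → E} {g : E}
    (hon : ∀ i j, ⟪e i, e j⟫_ℂ = if i = j then 1 else 0)
    (hpar : HasSum (fun i => ‖⟪e i, g⟫_ℂ‖ ^ 2) (‖g‖ ^ 2)) (w : E) :
    HasSum (fun i => ⟪w, e i⟫_ℂ * ⟪e i, g⟫_ℂ) ⟪w, g⟫_ℂ := by
  set φ : ℕ → E := fun i => ⟪e i, g⟫_ℂ • e i with hφ
  have horth : ∀ i j, i ≠ j → ⟪φ i, φ j⟫_ℂ = 0 := by
    intro i j hij
    simp only [hφ, inner_smul_left, inner_smul_right, hon i j, if_neg hij, mul_zero]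
  have hself : ∀ i, ⟪φ i, φ i⟫_ℂ = conj ⟪e i, g⟫_ℂ * ⟪e i, g⟫_ℂ := by
    intro i
    simp only [hφ, inner_smul_left, inner_smul_right, hon i i, if_true, mul_one]
    ring
  have hproj : ∀ i, ⟪φ i, g⟫_ℂ = ⟪φ i, φ i⟫_ℂ := by
    intro i
    rw [hself i]
    simp only [hφ, inner_smul_left]
  have hsum : Summable φ := orth_summable379 horth hproj
  obtain ⟨g', hg'⟩ := hsum
  have hrem := orth_rem379 hg' horth hproj
  have hn := orth_norm_sq379 hg' horth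
  have hnorm : ∀ i, ‖φ i‖ ^ 2 = ‖⟪e i, g⟫_ℂ‖ ^ 2 := by
    intro i
    have h1 : ‖e i‖ = 1 := by
      have := hon i i
      rw [if_pos rfl, inner_self_eq_norm_sq_to_K] at this
      have h2 : (‖e i‖ : ℂ) ^ 2 = 1 := this
      have h3 : ‖e i‖ ^ 2 = 1 := by exact_mod_cast h2
      exact (pow_eq_one_iff_of_nonneg (norm_nonneg _) two_ne_zero).1 h3
    simp only [hφ, norm_smul, h1, mul_one]
  have hn' : HasSum (fun i => ‖⟪e i, g⟫_ℂ‖ ^ 2) (‖g'‖ ^ 2) := by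
    have : (fun i => ‖φ i‖ ^ 2) = fun i => ‖⟪e i, g⟫_ℂ‖ ^ 2 := funext hnorm
    rw [← this]; exact hn
  have heq : ‖g'‖ ^ 2 = ‖g‖ ^ 2 := hn'.unique hpar
  have hpyth : ‖g' + (g - g')‖ * ‖g' + (g - g')‖ = ‖g'‖ * ‖g'‖ + ‖g - g'‖ * ‖g - g'‖ :=
    norm_add_sq_eq_norm_sq_add_norm_sq_of_inner_eq_zero (𝕜 := ℂ) g' (g - g') hrem
  have hz : ‖g - g'‖ = 0 := by
    have h1 : g' + (g - g') = g := by abel
    rw [h1] at hpyth
    have h2 : ‖g - g'‖ * ‖g - g'‖ = 0 := by nlinarith [heq]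
    exact mul_self_eq_zero.1 h2
  have hgg : g = g' := by
    have := norm_eq_zero.1 hz
    exact sub_eq_zero.1 this
  rw [← hgg] at hg'
  have h3 := hasSum_inner_right379 hg' w
  have h4 : (fun i => ⟪w, φ i⟫_ℂ) = fun i => ⟪w, e i⟫_ℂ * ⟪e i, g⟫_ℂ := by
    funext i
    simp only [hφ, inner_smul_right]
    ring
  rw [h4] at h3
  exact h3

end Fermat.Agent.LT.T5.H379
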