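import Mathlib
import Fermat.Agent.LT.T5.H379.HilbAbs

/-!
# Row LT, tower T5, leaf T5.01 (helper379): the abstract trace identity — MEASURE THEORY ONLY

OFF-MAIN.  Mathlib only.  For a finite measure `ν`, square-integrable kernels `K₁, K₂` on the
product, and an orthonormal sequence `e` of bounded measurable functions such that the range of
the operator with kernel `K₁` satisfies Parseval's identity for `e`:
`∑ᵢ ⟨K₁ K₂ eᵢ, eᵢ⟩ = ∬ K₁(x,z) K₂(z,x)` (absolutely convergent).
-/

set_option autoImplicit false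

open MeasureTheory ComplexConjugate
open scoped ENNReal InnerProductSpace

noncomputable section

namespace Fermat.Agent.LT.T5.H379

variable {X : Type*} [MeasurableSpace X] {ν : Measure X}

/-- Dictionary: the inner product of `L²` as an integral. -/
theorem inner_toLp379 {f g : X → ℂ} (hf : MemLp f 2 ν) (hg : MemLp g 2 ν) :
    ⟪hf.toLp f, hg.toLp g⟫_ℂ = ∫ x, g x * conj (f x) ∂ν := by
  rw [L2.inner_def]
  apply integral_congr_ae
  filter_upwards [hf.coeFn_toLp, hg.coeFn_toLp] with x h1 h2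
  rw [h1, h2, RCLike.inner_apply]

/-- Dictionary: the norm of `L²` as an integral. -/
theorem norm_sq_toLp379 {f : X → ℂ} (hf : MemLp f 2 ν) :
    ‖hf.toLp f‖ ^ 2 = ∫ x, ‖f x‖ ^ 2 ∂ν := by
  have h1 : ‖hf.toLp f‖ ^ 2 = RCLike.re ⟪hf.toLp f, hf.toLp f⟫_ℂ :=
    (inner_self_eq_norm_sq (𝕜 := ℂ) (hf.toLp f)).symm
  rw [h1, inner_toLp379 hf hf]
  have h2 : (fun x => f x * conj (f x)) = fun x => ((‖f x‖ ^ 2 : ℝ) : ℂ) := by
    funext x
    rw [RCLike.mul_conj]
    push_cast
    rfl
  have h3 : ∫ x, ((‖f x‖ ^ 2 : ℝ) : ℂ) ∂ν = ((∫ x, ‖f x‖ ^ 2 ∂ν : ℝ) : ℂ) :=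
    integral_ofReal (𝕜 := ℂ)
  rw [h2, h3]
  simp

/-- The conjugate of an `L²` function is `L²`. -/
theorem memLp_conj379 {f : X → ℂ} (hf : MemLp f 2 ν) : MemLp (fun x => conj (f x)) 2 ν := by
  refine ⟨?_, ?_⟩
  · exact (Complex.continuous_conj.comp_aestronglyMeasurable hf.1)
  · have : eLpNorm (fun x => conj (f x)) 2 ν = eLpNorm f 2 ν := by
      apply eLpNorm_congr_norm_ae
      filter_upwards with x
      simp
    rw [this]
    exact hf.2

/-- A bounded measurable function on a finite measure space is `L²`. -/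
theorem memLp_of_bdd379 [IsFiniteMeasure ν] {f : X → ℂ} (hf : AEStronglyMeasurable f ν)
    {C : ℝ} (hC : ∀ x, ‖f x‖ ≤ C) : MemLp f 2 ν :=
  MemLp.of_bound hf C (Filter.Eventually.of_forall hC)

/-- The operator with kernel `K`: `(K f)(x) = ∫ K(x,z) f(z) dz`. -/
def kop379 (ν : Measure X) (K : X → X → ℂ) (f : X → ℂ) : X → ℂ :=
  fun x => ∫ z, K x z * f z ∂ν

/-- Almost every section of a square-integrable kernel is square-integrable. -/
theorem ae_memLp_section379 [IsFiniteMeasure ν] {N : X → X → ℂ}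
    (hN : MemLp (fun p : X × X => N p.1 p.2) 2 (ν.prod ν)) :
    ∀ᵐ x ∂ν, MemLp (N x) 2 ν := by
  have h1 : ∀ᵐ x ∂ν, AEStronglyMeasurable (fun y => N x y) ν := hN.1.prodMk_left
  have h2 : Integrable (fun p : X × X => ‖N p.1 p.2‖ ^ 2) (ν.prod ν) :=
    (memLp_two_iff_integrable_sq_norm hN.1).1 hN
  have h3 := h2.prod_right_ae
  filter_upwards [h1, h3] with x hx1 hx3
  exact (memLp_two_iff_integrable_sq_norm hx1).2 hx3

/-- The square norm of the sections is integrable. -/
theorem integrable_section_sq379 [IsFiniteMeasure ν] {N : X → X → ℂ}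
    (hN : MemLp (fun p : X × X => N p.1 p.2) 2 (ν.prod ν)) :
    Integrable (fun x => ∫ z, ‖N x z‖ ^ 2 ∂ν) ν := by
  have h2 : Integrable (fun p : X × X => ‖N p.1 p.2‖ ^ 2) (ν.prod ν) :=
    (memLp_two_iff_integrable_sq_norm hN.1).1 hN
  exact h2.integral_prod_left

/-- The transposed kernel is square-integrable. -/
theorem memLp_transpose379 [IsFiniteMeasure ν] {N : X → X → ℂ}
    (hN : MemLp (fun p : X × X => N p.1 p.2) 2 (ν.prod ν)) :
    MemLp (fun p : X × X => N p.2 p.1) 2 (ν.prod ν) :=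
  hN.comp_measurePreserving (Measure.measurePreserving_swap (μ := ν) (ν := ν))

/-- Tensor products of `L²` functions are `L²` on the product. -/
theorem memLp_tensor379 [IsFiniteMeasure ν] {u v : X → ℂ} (hu : MemLp u 2 ν)
    (hv : MemLp v 2 ν) : MemLp (fun p : X × X => u p.1 * v p.2) 2 (ν.prod ν) := by
  have hm : AEStronglyMeasurable (fun p : X × X => u p.1 * v p.2) (ν.prod ν) :=
    (hu.comp_fst ν).1.mul (hv.comp_snd ν).1
  rw [memLp_two_iff_integrable_sq_norm hm]
  have h1 := (memLp_two_iff_integrable_sq_norm hu.1).1 hu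
  have h2 := (memLp_two_iff_integrable_sq_norm hv.1).1 hv
  have h3 := h1.mul_prod h2
  refine h3.congr ?_
  filter_upwards with p
  simp [mul_pow]

/-- The kernel operator as an inner product with the section. -/
theorem kop_eq_inner379 {N : X → X → ℂ} {f : X → ℂ} (hf : MemLp f 2 ν) {x : X}
    (hx : MemLp (N x) 2 ν) :
    kop379 ν N f x = ⟪(memLp_conj379 hf).toLp _, hx.toLp (N x)⟫_ℂ := by
  rw [inner_toLp379]
  simp [kop379]

/-- Pointwise Cauchy–Schwarz for the kernel operator. -/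
theorem kop_sq_le379 {N : X → X → ℂ} {f : X → ℂ} (hf : MemLp f 2 ν) {x : X}
    (hx : MemLp (N x) 2 ν) :
    ‖kop379 ν N f x‖ ^ 2 ≤ (∫ z, ‖f z‖ ^ 2 ∂ν) * ∫ z, ‖N x z‖ ^ 2 ∂ν := by
  rw [kop_eq_inner379 hf hx]
  have h1 := norm_inner_le_norm (𝕜 := ℂ) ((memLp_conj379 hf).toLp _) (hx.toLp (N x))
  have h2 : ‖⟪(memLp_conj379 hf).toLp _, hx.toLp (N x)⟫_ℂ‖ ^ 2
      ≤ (‖(memLp_conj379 hf).toLp _‖ * ‖hx.toLp (N x)‖) ^ 2 :=
    pow_le_pow_left₀ (norm_nonneg _) h1 2
  rw [mul_pow, norm_sq_toLp379, norm_sq_toLp379] at h2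
  simpa using h2

/-- The kernel operator maps `L²` to `L²`. -/
theorem memLp_kop379 [IsFiniteMeasure ν] {N : X → X → ℂ}
    (hN : MemLp (fun p : X × X => N p.1 p.2) 2 (ν.prod ν)) {f : X → ℂ} (hf : MemLp f 2 ν) :
    MemLp (kop379 ν N f) 2 ν := by
  have hm : AEStronglyMeasurable (kop379 ν N f) ν := by
    have h0 : AEStronglyMeasurable (fun p : X × X => N p.1 p.2 * f p.2) (ν.prod ν) :=
      hN.1.mul (hf.comp_snd ν).1
    exact h0.integral_prod_right'
  rw [memLp_two_iff_integrable_sq_norm hm]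
  have hi : Integrable (fun x => (∫ z, ‖f z‖ ^ 2 ∂ν) * ∫ z, ‖N x z‖ ^ 2 ∂ν) ν :=
    (integrable_section_sq379 hN).const_mul _
  refine hi.mono' (hm.norm.pow 2) ?_
  filter_upwards [ae_memLp_section379 hN] with x hx
  rw [Real.norm_eq_abs, abs_of_nonneg (by positivity)]
  exact kop_sq_le379 hf hx

/-- Integrability of `N(x,z) u(x) v(z)`. -/
theorem integrable_bil379 [IsFiniteMeasure ν] {N : X → X → ℂ}
    (hN : MemLp (fun p : X × X => N p.1 p.2) 2 (ν.prod ν)) {u v : X → ℂ}
    (hu : MemLp u 2 ν) (hv : MemLp v 2 ν) :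
    Integrable (fun p : X × X => N p.1 p.2 * (u p.1 * v p.2)) (ν.prod ν) :=
  hN.integrable_mul (memLp_tensor379 hu hv)

/-- Fubini, inner integral over the second variable. -/
theorem bil_eq_left379 [IsFiniteMeasure ν] {N : X → X → ℂ}
    (hN : MemLp (fun p : X × X => N p.1 p.2) 2 (ν.prod ν)) {u v : X → ℂ}
    (hu : MemLp u 2 ν) (hv : MemLp v 2 ν) :
    ∫ p, N p.1 p.2 * (u p.1 * v p.2) ∂(ν.prod ν) = ∫ x, u x * kop379 ν N v x ∂ν := by
  rw [integral_prod _ (integrable_bil379 hN hu hv)]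
  apply integral_congr_ae
  filter_upwards with x
  simp only [kop379]
  rw [← integral_const_mul]
  congr 1
  funext z
  ring

/-- Fubini, inner integral over the first variable. -/
theorem bil_eq_right379 [IsFiniteMeasure ν] {N : X → X → ℂ}
    (hN : MemLp (fun p : X × X => N p.1 p.2) 2 (ν.prod ν)) {u v : X → ℂ}
    (hu : MemLp u 2 ν) (hv : MemLp v 2 ν) :
    ∫ p, N p.1 p.2 * (u p.1 * v p.2) ∂(ν.prod ν)
      = ∫ z, v z * kop379 ν (fun a b => N b a) u z ∂ν := by
  rw [integral_prod_symm _ (integrable_bil379 hN hu hv)]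
  apply integral_congr_ae
  filter_upwards with z
  simp only [kop379]
  rw [← integral_const_mul]
  congr 1
  funext x
  ring

/-- An `L²` function on the product whose integrals over all measurable rectangles vanish is
zero. -/
theorem eq_zero_of_rect379 [IsFiniteMeasure ν] (Ψ : Lp ℂ 2 (ν.prod ν))
    (h : ∀ S T : Set X, MeasurableSet S → MeasurableSet T →
      ∫ p in S ×ˢ T, Ψ p ∂(ν.prod ν) = 0) : Ψ = 0 := by
  have hint : Integrable (Ψ : X × X → ℂ) (ν.prod ν) :=
    (Lp.memLp Ψ).integrable (by norm_num)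
  have hall : ∀ U, MeasurableSet U → ∫ p in U, Ψ p ∂(ν.prod ν) = 0 := by
    intro U hU
    induction U, hU using MeasurableSpace.induction_on_inter generateFrom_prod.symm
      isPiSystem_prod with
    | empty => simp
    | basic t ht =>
      obtain ⟨S, hS, T, hT, rfl⟩ := ht
      exact h S T hS hT
    | compl t htm ih =>
      have I : ∫ p, Ψ p ∂(ν.prod ν) = 0 := by
        have := h Set.univ Set.univ MeasurableSet.univ MeasurableSet.univ
        simpa using this
      have := integral_add_compl htm hint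
      rw [ih, I, zero_add] at this
      exact this
    | iUnion f hd hfm ih =>
      rw [integral_iUnion hfm hd hint.integrableOn]
      simp [ih]
  have := hint.ae_eq_zero_of_forall_setIntegral_eq_zero (fun s hs _ => hall s hs)
  exact (Lp.eq_zero_iff_ae_eq_zero).2 this

end Fermat.Agent.LT.T5.H379
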