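import Mathlib
import Fermat.Agent.LT.T5.H379.TraceAbs

/-!
# Row LT, tower T5, leaf T5.01 (helper379): the abstract trace identity (Mathlib only)

`abstract_trace379`: for a finite measure `ν`, `K₁, K₂ ∈ L²(ν × ν)`, an orthonormal sequence `e`
in `L²(ν)` such that the range of the operator with kernel `K₁` satisfies Parseval's identity
for `e`: `∑ᵢ ⟨K₁ K₂ eᵢ, eᵢ⟩ = ∫∫ K₁(x,z) K₂(z,x)`, the series being (absolutely) summable.
-/

set_option autoImplicit false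

open MeasureTheory ComplexConjugate
open scoped ENNReal InnerProductSpace

noncomputable section

namespace Fermat.Agent.LT.T5.H379

variable {X : Type*} [MeasurableSpace X] {ν : Measure X}

/-- The coefficient functions `cᵢ(z) = ∫ K₁(x,z) conj(eᵢ(x)) dx`. -/
def cfun379 (ν : Measure X) (K₁ : X → X → ℂ) (e : ℕ → X → ℂ) (i : ℕ) : X → ℂ :=
  kop379 ν (fun z x => K₁ x z) (fun x => conj (e i x))

section

variable [IsFiniteMeasure ν] {K₁ K₂ : X → X → ℂ} {e : ℕ → X → ℂ}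

theorem memLp_cfun379 (hK₁ : MemLp (fun p : X × X => K₁ p.1 p.2) 2 (ν.prod ν))
    (he : ∀ i, MemLp (e i) 2 ν) (i : ℕ) : MemLp (cfun379 ν K₁ e i) 2 ν :=
  memLp_kop379 (memLp_transpose379 hK₁) (memLp_conj379 (he i))

theorem memLp_phi379 (hK₁ : MemLp (fun p : X × X => K₁ p.1 p.2) 2 (ν.prod ν))
    (he : ∀ i, MemLp (e i) 2 ν) (i : ℕ) :
    MemLp (fun p : X × X => cfun379 ν K₁ e i p.1 * e i p.2) 2 (ν.prod ν) :=
  memLp_tensor379 (memLp_cfun379 hK₁ he i) (he i)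

/-- `∫ cᵢ u = ∫ (K₁ u) conj(eᵢ)`. -/
theorem int_cfun_mul379 (hK₁ : MemLp (fun p : X × X => K₁ p.1 p.2) 2 (ν.prod ν))
    (he : ∀ i, MemLp (e i) 2 ν) (i : ℕ) {u : X → ℂ} (hu : MemLp u 2 ν) :
    ∫ z, cfun379 ν K₁ e i z * u z ∂ν = ∫ x, kop379 ν K₁ u x * conj (e i x) ∂ν := by
  have h1 := bil_eq_left379 (N := fun z x => K₁ x z) (memLp_transpose379 hK₁) hu (memLp_conj379 (he i))
  have h2 := bil_eq_right379 (N := fun z x => K₁ x z) (memLp_transpose379 hK₁) hu (memLp_conj379 (he i))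
  rw [h1] at h2
  have e1 : (fun z => cfun379 ν K₁ e i z * u z)
      = fun x => u x * kop379 ν (fun z x => K₁ x z) (fun x => conj (e i x)) x := by
    funext z
    rw [mul_comm]
    rfl
  have e2 : (fun x => kop379 ν K₁ u x * conj (e i x))
      = fun z => conj (e i z) * kop379 ν (fun a b => (fun z x => K₁ x z) b a) u z := by
    funext z
    rw [mul_comm]
  rw [e1, e2]
  exact h2

/-- Inner products of the `Φᵢ`. -/
theorem inner_phi_phi379 (hK₁ : MemLp (fun p : X × X => K₁ p.1 p.2) 2 (ν.prod ν))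
    (he : ∀ i, MemLp (e i) 2 ν) (i j : ℕ) :
    ⟪(memLp_phi379 hK₁ he i).toLp _, (memLp_phi379 hK₁ he j).toLp _⟫_ℂ
      = (∫ z, cfun379 ν K₁ e j z * conj (cfun379 ν K₁ e i z) ∂ν)
        * ∫ x, e j x * conj (e i x) ∂ν := by
  rw [inner_toLp379, ← integral_prod_mul]
  congr 1
  funext p
  simp only [map_mul]
  ring

/-- `⟪Φᵢ, K₁ᵗ⟫ = ∫ cᵢ conj(cᵢ)`. -/
theorem inner_phi_y379 (hK₁ : MemLp (fun p : X × X => K₁ p.1 p.2) 2 (ν.prod ν))
    (he : ∀ i, MemLp (e i) 2 ν) (i : ℕ) :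
    ⟪(memLp_phi379 hK₁ he i).toLp _, (memLp_transpose379 hK₁).toLp _⟫_ℂ
      = ∫ z, cfun379 ν K₁ e i z * conj (cfun379 ν K₁ e i z) ∂ν := by
  rw [inner_toLp379]
  have h1 := bil_eq_left379 (N := fun z x => K₁ x z) (memLp_transpose379 hK₁)
    (memLp_conj379 (memLp_cfun379 hK₁ he i)) (memLp_conj379 (he i))
  have e1 : (fun p : X × X => K₁ p.2 p.1 * conj (cfun379 ν K₁ e i p.1 * e i p.2))
      = fun p : X × X => (fun z x => K₁ x z) p.1 p.2
          * (conj (cfun379 ν K₁ e i p.1) * conj (e i p.2)) := by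
    funext p
    simp only [map_mul]
  rw [e1, h1]
  congr 1
  funext z
  rw [mul_comm]
  rfl

/-- The test vector `conj u ⊗ conj v`. -/
theorem memLp_test379 {u v : X → ℂ} (hu : MemLp u 2 ν) (hv : MemLp v 2 ν) :
    MemLp (fun p : X × X => conj (u p.1) * conj (v p.2)) 2 (ν.prod ν) :=
  memLp_tensor379 (memLp_conj379 hu) (memLp_conj379 hv)

/-- `⟪conj u ⊗ conj v, K₁ᵗ⟫ = ∫ (K₁ u) v`. -/
theorem inner_test_y379 (hK₁ : MemLp (fun p : X × X => K₁ p.1 p.2) 2 (ν.prod ν))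
    {u v : X → ℂ} (hu : MemLp u 2 ν) (hv : MemLp v 2 ν) :
    ⟪(memLp_test379 hu hv).toLp _, (memLp_transpose379 hK₁).toLp _⟫_ℂ
      = ∫ x, kop379 ν K₁ u x * v x ∂ν := by
  rw [inner_toLp379]
  have h2 := bil_eq_right379 (N := fun z x => K₁ x z) (memLp_transpose379 hK₁) hu hv
  have e1 : (fun p : X × X => K₁ p.2 p.1 * conj (conj (u p.1) * conj (v p.2)))
      = fun p : X × X => (fun z x => K₁ x z) p.1 p.2 * (u p.1 * v p.2) := by
    funext p
    simp only [map_mul, Complex.conj_conj]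
  rw [e1, h2]
  congr 1
  funext z
  rw [mul_comm]

/-- `⟪conj u ⊗ conj v, Φᵢ⟫ = (∫ (K₁ u) conj eᵢ) (∫ eᵢ v)`. -/
theorem inner_test_phi379 (hK₁ : MemLp (fun p : X × X => K₁ p.1 p.2) 2 (ν.prod ν))
    (he : ∀ i, MemLp (e i) 2 ν) (i : ℕ) {u v : X → ℂ} (hu : MemLp u 2 ν) (hv : MemLp v 2 ν) :
    ⟪(memLp_test379 hu hv).toLp _, (memLp_phi379 hK₁ he i).toLp _⟫_ℂ
      = (∫ x, kop379 ν K₁ u x * conj (e i x) ∂ν) * ∫ x, e i x * v x ∂ν := by
  rw [inner_toLp379, ← int_cfun_mul379 hK₁ he i hu, ← integral_prod_mul]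
  congr 1
  funext p
  simp only [map_mul, Complex.conj_conj]
  ring

/-- Parseval for the range of `K₁` gives the expansion of the bilinear form of `K₁`. -/
theorem expand379 (hK₁ : MemLp (fun p : X × X => K₁ p.1 p.2) 2 (ν.prod ν))
    (he : ∀ i, MemLp (e i) 2 ν)
    (hon : ∀ i j, ∫ x, e i x * conj (e j x) ∂ν = if i = j then 1 else 0)
    (hpar : ∀ f : X → ℂ, MemLp f 2 ν →
      HasSum (fun i => ‖∫ x, kop379 ν K₁ f x * conj (e i x) ∂ν‖ ^ 2)
        (∫ x, kop379 ν K₁ f x * conj (kop379 ν K₁ f x) ∂ν).re)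
    {u v : X → ℂ} (hu : MemLp u 2 ν) (hv : MemLp v 2 ν) :
    HasSum (fun i => (∫ x, kop379 ν K₁ u x * conj (e i x) ∂ν) * ∫ x, e i x * v x ∂ν)
      (∫ x, kop379 ν K₁ u x * v x ∂ν) := by
  have hG := memLp_kop379 hK₁ hu
  have hW := memLp_conj379 hv
  have hon' : ∀ i j, ⟪(he i).toLp (e i), (he j).toLp (e j)⟫_ℂ = if i = j then 1 else 0 := by
    intro i j
    rw [inner_toLp379, hon j i]
    by_cases h : i = j
    · subst h; simp
    · rw [if_neg h, if_neg (Ne.symm h)]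
  have hpar' : HasSum (fun i => ‖⟪(he i).toLp (e i), hG.toLp _⟫_ℂ‖ ^ 2)
      (‖hG.toLp (kop379 ν K₁ u)‖ ^ 2) := by
    have h1 := hpar u hu
    have e1 : (fun i => ‖⟪(he i).toLp (e i), hG.toLp _⟫_ℂ‖ ^ 2)
        = fun i => ‖∫ x, kop379 ν K₁ u x * conj (e i x) ∂ν‖ ^ 2 := by
      funext i
      rw [inner_toLp379]
    have e2 : ‖hG.toLp (kop379 ν K₁ u)‖ ^ 2
        = (∫ x, kop379 ν K₁ u x * conj (kop379 ν K₁ u x) ∂ν).re := by
      rw [← inner_toLp379 hG hG]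
      exact (inner_self_eq_norm_sq (𝕜 := ℂ) _).symm
    rw [e1, e2]
    exact h1
  have h := parseval_expand379 hon' hpar' (hW.toLp _)
  have e3 : (fun i => ⟪hW.toLp _, (he i).toLp (e i)⟫_ℂ * ⟪(he i).toLp (e i), hG.toLp _⟫_ℂ)
      = fun i => (∫ x, kop379 ν K₁ u x * conj (e i x) ∂ν) * ∫ x, e i x * v x ∂ν := by
    funext i
    rw [inner_toLp379, inner_toLp379, mul_comm]
    simp only [Complex.conj_conj]
  have e4 : ⟪hW.toLp _, hG.toLp _⟫_ℂ = ∫ x, kop379 ν K₁ u x * v x ∂ν := by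
    rw [inner_toLp379]
    simp only [Complex.conj_conj]
  rw [e3, e4] at h
  exact h

/-- **The kernel is the sum of the `Φᵢ` in `L²` of the product.** -/
theorem hasSum_phi379 (hK₁ : MemLp (fun p : X × X => K₁ p.1 p.2) 2 (ν.prod ν))
    (he : ∀ i, MemLp (e i) 2 ν)
    (hon : ∀ i j, ∫ x, e i x * conj (e j x) ∂ν = if i = j then 1 else 0)
    (hpar : ∀ f : X → ℂ, MemLp f 2 ν →
      HasSum (fun i => ‖∫ x, kop379 ν K₁ f x * conj (e i x) ∂ν‖ ^ 2)
        (∫ x, kop379 ν K₁ f x * conj (kop379 ν K₁ f x) ∂ν).re) :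
    HasSum (fun i => (memLp_phi379 hK₁ he i).toLp _)
      ((memLp_transpose379 hK₁).toLp (fun p : X × X => K₁ p.2 p.1)) := by
  have horth : ∀ i j, i ≠ j →
      ⟪(memLp_phi379 hK₁ he i).toLp _, (memLp_phi379 hK₁ he j).toLp _⟫_ℂ = 0 := by
    intro i j hij
    rw [inner_phi_phi379 hK₁ he i j, hon j i, if_neg (Ne.symm hij), mul_zero]
  have hproj : ∀ i,
      ⟪(memLp_phi379 hK₁ he i).toLp _, (memLp_transpose379 hK₁).toLp _⟫_ℂ
        = ⟪(memLp_phi379 hK₁ he i).toLp _, (memLp_phi379 hK₁ he i).toLp _⟫_ℂ := by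
    intro i
    rw [inner_phi_y379 hK₁ he i, inner_phi_phi379 hK₁ he i i, hon i i, if_pos rfl, mul_one]
  obtain ⟨g', hg'⟩ := orth_summable379 horth hproj
  have hzero : (memLp_transpose379 hK₁).toLp (fun p : X × X => K₁ p.2 p.1) - g' = 0 := by
    apply eq_zero_of_rect379
    intro S T hS hT
    rw [← L2.inner_indicatorConstLp_one (𝕜 := ℂ) (hS.prod hT) (measure_ne_top _ _)]
    have hu : MemLp (S.indicator (fun _ => (1 : ℂ))) 2 ν :=
      memLp_indicator_const 2 hS 1 (Or.inr (measure_ne_top _ _))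
    have hv : MemLp (T.indicator (fun _ => (1 : ℂ))) 2 ν :=
      memLp_indicator_const 2 hT 1 (Or.inr (measure_ne_top _ _))
    have hind : indicatorConstLp 2 (hS.prod hT) (measure_ne_top (ν.prod ν) _) (1 : ℂ)
        = (memLp_test379 hu hv).toLp _ := by
      rw [indicatorConstLp]
      apply MemLp.toLp_congr
      filter_upwards with p
      by_cases h1 : p.1 ∈ S <;> by_cases h2 : p.2 ∈ T <;> simp [Set.indicator, h1, h2]
    rw [hind, inner_sub_right, inner_test_y379 hK₁ hu hv]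
    have h3 := hasSum_inner_right379 hg' ((memLp_test379 hu hv).toLp _)
    have e5 : (fun i => ⟪(memLp_test379 hu hv).toLp _, (memLp_phi379 hK₁ he i).toLp _⟫_ℂ)
        = fun i => (∫ x, kop379 ν K₁ (S.indicator (fun _ => (1 : ℂ))) x * conj (e i x) ∂ν)
            * ∫ x, e i x * T.indicator (fun _ => (1 : ℂ)) x ∂ν :=
      funext fun i => inner_test_phi379 hK₁ he i hu hv
    rw [e5] at h3
    rw [h3.unique (expand379 hK₁ he hon hpar hu hv), sub_self]
  rw [sub_eq_zero] at hzero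
  rw [hzero]
  exact hg'

/-- The diagonal coefficient as an inner product in `L²` of the product. -/
theorem term_eq379 (hK₁ : MemLp (fun p : X × X => K₁ p.1 p.2) 2 (ν.prod ν))
    (hK₂ : MemLp (fun p : X × X => K₂ p.1 p.2) 2 (ν.prod ν))
    (he : ∀ i, MemLp (e i) 2 ν) (i : ℕ) :
    ∫ x, kop379 ν K₁ (kop379 ν K₂ (e i)) x * conj (e i x) ∂ν
      = ⟪(memLp_conj379 hK₂).toLp _, (memLp_phi379 hK₁ he i).toLp _⟫_ℂ := by
  rw [← int_cfun_mul379 hK₁ he i (memLp_kop379 hK₂ (he i)), inner_toLp379]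
  have h1 := bil_eq_left379 hK₂ (memLp_cfun379 hK₁ he i) (he i)
  rw [← h1]
  congr 1
  funext p
  simp only [Complex.conj_conj]
  ring

/-- **T5.01, abstract form.**  Trace of a product of two Hilbert–Schmidt kernel operators,
computed in an orthonormal sequence for which the range of the first operator satisfies
Parseval's identity. -/
theorem abstract_trace379 (K₁ K₂ : X → X → ℂ) (e : ℕ → X → ℂ)
    (hK₁ : MemLp (fun p : X × X => K₁ p.1 p.2) 2 (ν.prod ν))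
    (hK₂ : MemLp (fun p : X × X => K₂ p.1 p.2) 2 (ν.prod ν))
    (he : ∀ i, MemLp (e i) 2 ν)
    (hon : ∀ i j, ∫ x, e i x * conj (e j x) ∂ν = if i = j then 1 else 0)
    (hpar : ∀ f : X → ℂ, MemLp f 2 ν →
      HasSum (fun i => ‖∫ x, kop379 ν K₁ f x * conj (e i x) ∂ν‖ ^ 2)
        (∫ x, kop379 ν K₁ f x * conj (kop379 ν K₁ f x) ∂ν).re) :
    Summable (fun i => ∫ x, kop379 ν K₁ (kop379 ν K₂ (e i)) x * conj (e i x) ∂ν) ∧
      Integrable (fun x => ∫ z, K₁ x z * K₂ z x ∂ν) ν ∧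
      ∑' i, ∫ x, kop379 ν K₁ (kop379 ν K₂ (e i)) x * conj (e i x) ∂ν
        = ∫ x, ∫ z, K₁ x z * K₂ z x ∂ν ∂ν := by
  have hy := hasSum_phi379 hK₁ he hon hpar
  have hL := memLp_conj379 hK₂
  have h1 := hasSum_inner_right379 hy (hL.toLp _)
  have e1 : (fun i => ⟪hL.toLp _, (memLp_phi379 hK₁ he i).toLp _⟫_ℂ)
      = fun i => ∫ x, kop379 ν K₁ (kop379 ν K₂ (e i)) x * conj (e i x) ∂ν :=
    funext fun i => (term_eq379 hK₁ hK₂ he i).symm
  rw [e1] at h1
  have hint : Integrable (fun p : X × X => K₁ p.1 p.2 * K₂ p.2 p.1) (ν.prod ν) :=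
    hK₁.integrable_mul (memLp_transpose379 hK₂)
  have e2 : ⟪hL.toLp _, (memLp_transpose379 hK₁).toLp (fun p : X × X => K₁ p.2 p.1)⟫_ℂ
      = ∫ x, ∫ z, K₁ x z * K₂ z x ∂ν ∂ν := by
    rw [inner_toLp379]
    have h2 := integral_prod_swap (μ := ν) (ν := ν)
      (fun p : X × X => K₁ p.1 p.2 * K₂ p.2 p.1)
    have h3 := integral_prod _ hint
    rw [← h3, ← h2]
    congr 1
    funext p
    simp only [Complex.conj_conj, Prod.fst_swap, Prod.snd_swap]
  refine ⟨h1.summable, hint.integral_prod_left, ?_⟩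
  rw [h1.tsum_eq, e2]

end

end Fermat.Agent.LT.T5.H379
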